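import Fermat.Agent.LT.T7.H1U.FactIntUpQSpec

/-!
# Row LT, tower T7, leaf T7.L2Q.1.H1.5.8.1.c.0 `H1U.OverSetQC` (cut of helper1): PROVED
# (helper42, owner of registry row 2857)

OFF-MAIN.  Complete proof, nothing assumed.  New names only (suffix `42`).

    overSetQC42 (F) : H1U.OverSetQC F          (VERBATIM, unconditional, every number field)

Proof.  `finite_placeOver42` (any extension `K'/K` of number fields): a place `w` over `v`
contains the image `y` of a non-zero `x ∈ v`, so `w` divides the non-zero ideal `(y)`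
(`Ideal.finite_factors`).  `T'` = the union of the fibres.  No definition of the spec is
unfolded by `unfold` / `simp` / `rw`.
-/

set_option autoImplicit false

open IsDedekindDomain NumberField

namespace Fermat.Agent.LT.T7.H42

open Fermat.Agent.LT.T7 Fermat.Agent.LT.T7.H305

/-- The places of `K'` over a place of `K` are finite in number. -/
theorem finite_placeOver42 (K K' : Type) [Field K] [NumberField K] [Field K'] [NumberField K']
    [Algebra K K'] (v : HeightOneSpectrum (𝓞 K)) :
    {w : HeightOneSpectrum (𝓞 K') | PlaceOver K K' v w}.Finite := by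
  obtain ⟨x, hxv, hx0⟩ : ∃ x ∈ v.asIdeal, x ≠ 0 :=
    Submodule.exists_mem_ne_zero_of_ne_bot v.ne_bot
  set y : 𝓞 K' := algebraMap (𝓞 K) (𝓞 K') x with hy
  have hyc : ((y : 𝓞 K') : K') = algebraMap K K' (x : K) := rfl
  have hy0 : y ≠ 0 := by
    intro h
    apply hx0
    have h1 : algebraMap K K' (x : K) = 0 := by
      rw [← hyc, h]
      exact map_zero _
    have h2 : (x : K) = 0 := (map_eq_zero_iff _ (algebraMap K K').injective).1 h1
    exact (map_eq_zero_iff _ (RingOfIntegers.coe_injective)).1 h2
  have hI : Ideal.span ({y} : Set (𝓞 K')) ≠ 0 := by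
    intro h
    exact hy0 (Ideal.span_singleton_eq_bot.1 h)
  refine (Ideal.finite_factors hI).subset ?_
  intro w hw
  have hyw : y ∈ w.asIdeal := (hw x y hyc).1 hxv
  exact Ideal.dvd_span_singleton.2 hyw

/-- The set of ALL places over a finite set of places (any extension of number fields). -/
theorem exists_overSet42 (K K' : Type) [Field K] [NumberField K] [Field K'] [NumberField K']
    [Algebra K K'] (T : Finset (HeightOneSpectrum (𝓞 K))) :
    ∃ T' : Finset (HeightOneSpectrum (𝓞 K')), IsOver305 T T' := by
  classical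
  refine ⟨T.biUnion fun v => (finite_placeOver42 K K' v).toFinset, fun w => ?_⟩
  rw [Finset.mem_biUnion]
  constructor
  · rintro ⟨v, hv, hw⟩
    exact ⟨v, hv, (Set.Finite.mem_toFinset _).1 hw⟩
  · rintro ⟨v, hv, hw⟩
    exact ⟨v, hv, (Set.Finite.mem_toFinset _).2 hw⟩

/-- **LEAF B.0 = OVER-SET, VERBATIM.** -/
theorem overSetQC42 (F : Type) [Field F] [NumberField F] : H1U.OverSetQC F :=
  fun T => exists_overSet42 ℚ F T

end Fermat.Agent.LT.T7.H42
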